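/-
helper38 (P-DS / ES1-KL-DEGX, sub-lead helper91), part 1 (Mathlib only): valuation calculus and
the uniqueness of the root of the level 2 / level 3 modular equations
`(X + 256)³ = j X²`, `(X + 27)(X + 243)³ = j X³` in a field with a `ℤ`-valued additive valuation
`v` with `v j = -1` (and `v n = 0` for the nonzero integers `n`).

Method: if `t` and `y` are roots then `(y - t) * Q(y) = 0` for an explicit cofactor `Q` (quadratic
resp. cubic in `y`, coefficients polynomial in `t`); the Newton polygon of `Q` has a single slope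
`1/2` resp. `1/3`, so `Q(y) ≠ 0`: in `Q(y)` exactly one term has the strictly smallest valuation.
-/
import Mathlib

set_option autoImplicit false

namespace Fermat.Agent.H38.ES1KL

variable {L : Type*} [Field L] (v : AddValuation L (WithTop ℤ))

/-- `x` has valuation exactly `n`. -/
def HasOrd (x : L) (n : ℤ) : Prop := v x = (n : WithTop ℤ)

variable {v}

theorem HasOrd.ne_zero {x : L} {n : ℤ} (h : HasOrd v x n) : x ≠ 0 := by
  intro h0
  rw [HasOrd, h0, AddValuation.map_zero] at h
  exact WithTop.top_ne_coe h

theorem exists_hasOrd {x : L} (hx : x ≠ 0) : ∃ n : ℤ, HasOrd v x n := by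
  have h : v x ≠ ⊤ := (AddValuation.ne_top_iff v).2 hx
  obtain ⟨n, hn⟩ := WithTop.ne_top_iff_exists.1 h
  exact ⟨n, hn.symm⟩

theorem HasOrd.unique {x : L} {m n : ℤ} (h : HasOrd v x m) (h' : HasOrd v x n) : m = n := by
  rw [HasOrd] at h h'
  rw [h] at h'
  exact WithTop.coe_injective h'

theorem HasOrd.mul {x y : L} {m n : ℤ} (hx : HasOrd v x m) (hy : HasOrd v y n) :
    HasOrd v (x * y) (m + n) := by
  rw [HasOrd] at hx hy ⊢
  rw [AddValuation.map_mul, hx, hy, WithTop.coe_add]

theorem HasOrd.neg {x : L} {m : ℤ} (hx : HasOrd v x m) : HasOrd v (-x) m := by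
  rw [HasOrd] at hx ⊢
  rw [AddValuation.map_neg, hx]

theorem hasOrd_one : HasOrd v (1 : L) 0 := by
  rw [HasOrd, AddValuation.map_one]
  rfl

theorem HasOrd.pow {x : L} {m : ℤ} (hx : HasOrd v x m) (k : ℕ) :
    HasOrd v (x ^ k) (k * m) := by
  induction k with
  | zero =>
    rw [pow_zero, Nat.cast_zero, zero_mul]
    exact hasOrd_one
  | succ k ih =>
    rw [pow_succ]
    have h := ih.mul hx
    have e : (k : ℤ) * m + m = ((k + 1 : ℕ) : ℤ) * m := by push_cast; ring
    rwa [e] at h

theorem HasOrd.add_of_lt {x y : L} {m n : ℤ} (hx : HasOrd v x m) (hy : HasOrd v y n)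
    (h : m < n) : HasOrd v (x + y) m := by
  rw [HasOrd] at hx hy ⊢
  rw [AddValuation.map_add_eq_of_lt_left, hx]
  rw [hx, hy]
  exact WithTop.coe_lt_coe.2 h

theorem HasOrd.add_of_gt {x y : L} {m n : ℤ} (hx : HasOrd v x m) (hy : HasOrd v y n)
    (h : n < m) : HasOrd v (x + y) n := by
  rw [add_comm]
  exact hy.add_of_lt hx h

/-- `(m : WithTop ℤ) ≤ v x`. -/
theorem HasOrd.le_add {x y : L} {m n k : ℤ} (hx : HasOrd v x m) (hy : HasOrd v y n)
    (hm : k ≤ m) (hn : k ≤ n) : ((k : ℤ) : WithTop ℤ) ≤ v (x + y) := by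
  rw [HasOrd] at hx hy
  apply AddValuation.map_le_add
  · rw [hx]; exact WithTop.coe_le_coe.2 hm
  · rw [hy]; exact WithTop.coe_le_coe.2 hn

/-- A sum of four terms in which the first one has the strictly smallest valuation is not zero. -/
theorem ne_zero_of_dominant4 {A B C D : L} {a b c d : ℤ} (hA : HasOrd v A a)
    (hB : HasOrd v B b) (hC : HasOrd v C c) (hD : HasOrd v D d) (hb : a < b) (hc : a < c)
    (hd : a < d) : A + B + C + D ≠ 0 := by
  have h1 : ((a : ℤ) : WithTop ℤ) < v (B + C + D) := by
    apply AddValuation.map_lt_add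
    · apply AddValuation.map_lt_add
      · rw [hB]; exact WithTop.coe_lt_coe.2 hb
      · rw [hC]; exact WithTop.coe_lt_coe.2 hc
    · rw [hD]; exact WithTop.coe_lt_coe.2 hd
  have h2 : v (A + (B + C + D)) = v A := by
    apply AddValuation.map_add_eq_of_lt_left
    rw [hA]
    exact h1
  intro h0
  have h3 : A + (B + C + D) = 0 := by rw [← h0]; ring
  rw [h3, AddValuation.map_zero, hA] at h2
  exact WithTop.top_ne_coe h2

/-- A sum of three terms in which the first one has the strictly smallest valuation is not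
zero. -/
theorem ne_zero_of_dominant3 {A B C : L} {a b c : ℤ} (hA : HasOrd v A a)
    (hB : HasOrd v B b) (hC : HasOrd v C c) (hb : a < b) (hc : a < c) : A + B + C ≠ 0 := by
  have h1 : ((a : ℤ) : WithTop ℤ) < v (B + C) := by
    apply AddValuation.map_lt_add
    · rw [hB]; exact WithTop.coe_lt_coe.2 hb
    · rw [hC]; exact WithTop.coe_lt_coe.2 hc
  have h2 : v (A + (B + C)) = v A := by
    apply AddValuation.map_add_eq_of_lt_left
    rw [hA]
    exact h1
  intro h0
  have h3 : A + (B + C) = 0 := by rw [← h0]; ring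
  rw [h3, AddValuation.map_zero, hA] at h2
  exact WithTop.top_ne_coe h2

/-! ### Level 2 -/

section two

variable {j : L} (hnum : ∀ n : ℕ, n ≠ 0 → HasOrd v (n : L) 0) (hj : HasOrd v j (-1))

include hnum hj

/-- A root of `(X + 256)³ = j X²` has valuation `-1`. -/
theorem hasOrd_root_two {t : L} (ht : (t + 256) ^ 3 = j * t ^ 2) : HasOrd v t (-1) := by
  have h256 : HasOrd v (256 : L) 0 := by
    have := hnum 256 (by norm_num)
    rwa [Nat.cast_ofNat] at this
  have ht0 : t ≠ 0 := by
    intro h0
    rw [h0, zero_add] at ht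
    have h1 : ((256 : L)) ^ 3 = 0 := by rw [ht]; ring
    exact (h256.pow 3).ne_zero h1
  obtain ⟨n, hn⟩ := exists_hasOrd (v := v) ht0
  have hR : HasOrd v (j * t ^ 2) (-1 + (2 : ℕ) * n) := hj.mul (hn.pow 2)
  rcases lt_trichotomy n 0 with h | h | h
  · have h1 : HasOrd v (t + 256) n := hn.add_of_lt h256 h
    have h2 := (h1.pow 3)
    rw [ht] at h2
    have h3 := h2.unique hR
    have : n = -1 := by push_cast at h3; omega
    rwa [this] at hn
  · exfalso
    have h1 : ((0 : ℤ) : WithTop ℤ) ≤ v (t + 256) := hn.le_add h256 h.ge le_rfl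
    have h2 : ((0 : ℤ) : WithTop ℤ) ≤ v ((t + 256) ^ 3) := by
      rw [AddValuation.map_pow]
      exact nsmul_nonneg h1 3
    rw [ht, hR, h] at h2
    have := WithTop.coe_le_coe.1 h2
    omega
  · exfalso
    have h1 : HasOrd v (t + 256) 0 := hn.add_of_gt h256 h
    have h2 := (h1.pow 3)
    rw [ht] at h2
    have h3 := h2.unique hR
    push_cast at h3
    omega

/-- **Uniqueness of the root of the level 2 modular equation.** -/
theorem root_two_unique {t y : L} (ht : (t + 256) ^ 3 = j * t ^ 2)
    (hy : (y + 256) ^ 3 = j * y ^ 2) : y = t := by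
  have hn : ∀ n : ℕ, n ≠ 0 → HasOrd v ((n : ℕ) : L) 0 := hnum
  have hT := hasOrd_root_two hnum hj ht
  have hY := hasOrd_root_two hnum hj hy
  have key : (y - t) * (t ^ 2 * y ^ 2 - (196608 * t + 16777216) * y - 16777216 * t) = 0 := by
    linear_combination t ^ 2 * hy - y ^ 2 * ht
  rcases mul_eq_zero.1 key with h | h
  · exact sub_eq_zero.1 h
  · exfalso
    have hc1 : HasOrd v (16777216 : L) 0 := by
      have := hnum 16777216 (by norm_num)
      rwa [Nat.cast_ofNat] at this
    have hc2 : HasOrd v (196608 : L) 0 := by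
      have := hnum 196608 (by norm_num)
      rwa [Nat.cast_ofNat] at this
    have hA : HasOrd v (t ^ 2 * y ^ 2) (-4) := by
      have := (hT.pow 2).mul (hY.pow 2)
      norm_num at this
      exact this
    have hB1 : HasOrd v (196608 * t + 16777216) (-1) := by
      have := (hc2.mul hT).add_of_lt hc1 (by norm_num)
      norm_num at this
      exact this
    have hB : HasOrd v (-((196608 * t + 16777216) * y)) (-2) := by
      have := (hB1.mul hY).neg
      norm_num at this
      exact this
    have hC : HasOrd v (-(16777216 * t)) (-1) := by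
      have := (hc1.mul hT).neg
      norm_num at this
      exact this
    refine ne_zero_of_dominant3 hA hB hC (by norm_num) (by norm_num) ?_
    rw [← h]
    ring

end two

/-! ### Level 3 -/

section three

variable {j : L} (hnum : ∀ n : ℕ, n ≠ 0 → HasOrd v (n : L) 0) (hj : HasOrd v j (-1))

include hnum hj

/-- A root of `(X + 27)(X + 243)³ = j X³` has valuation `-1`. -/
theorem hasOrd_root_three {t : L} (ht : (t + 27) * (t + 243) ^ 3 = j * t ^ 3) :
    HasOrd v t (-1) := by
  have h27 : HasOrd v (27 : L) 0 := by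
    have := hnum 27 (by norm_num)
    rwa [Nat.cast_ofNat] at this
  have h243 : HasOrd v (243 : L) 0 := by
    have := hnum 243 (by norm_num)
    rwa [Nat.cast_ofNat] at this
  have ht0 : t ≠ 0 := by
    intro h0
    rw [h0, zero_add, zero_add] at ht
    have h1 : (27 : L) * (243 : L) ^ 3 = 0 := by rw [ht]; ring
    exact (h27.mul (h243.pow 3)).ne_zero h1
  obtain ⟨n, hn⟩ := exists_hasOrd (v := v) ht0
  have hR : HasOrd v (j * t ^ 3) (-1 + (3 : ℕ) * n) := hj.mul (hn.pow 3)
  rcases lt_trichotomy n 0 with h | h | h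
  · have h1 : HasOrd v (t + 27) n := hn.add_of_lt h27 h
    have h1' : HasOrd v (t + 243) n := hn.add_of_lt h243 h
    have h2 := h1.mul (h1'.pow 3)
    rw [ht] at h2
    have h3 := h2.unique hR
    have : n = -1 := by push_cast at h3; omega
    rwa [this] at hn
  · exfalso
    have h1 : ((0 : ℤ) : WithTop ℤ) ≤ v (t + 27) := hn.le_add h27 h.ge le_rfl
    have h1' : ((0 : ℤ) : WithTop ℤ) ≤ v (t + 243) := hn.le_add h243 h.ge le_rfl
    have h2 : ((0 : ℤ) : WithTop ℤ) ≤ v ((t + 27) * (t + 243) ^ 3) := by
      rw [AddValuation.map_mul, AddValuation.map_pow]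
      exact add_nonneg h1 (nsmul_nonneg h1' 3)
    rw [ht, hR, h] at h2
    have := WithTop.coe_le_coe.1 h2
    omega
  · exfalso
    have h1 : HasOrd v (t + 27) 0 := hn.add_of_gt h27 h
    have h1' : HasOrd v (t + 243) 0 := hn.add_of_gt h243 h
    have h2 := h1.mul (h1'.pow 3)
    rw [ht] at h2
    have h3 := h2.unique hR
    push_cast at h3
    omega

/-- **Uniqueness of the root of the level 3 modular equation.** -/
theorem root_three_unique {t y : L} (ht : (t + 27) * (t + 243) ^ 3 = j * t ^ 3)
    (hy : (y + 27) * (y + 243) ^ 3 = j * y ^ 3) : y = t := by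
  have hT := hasOrd_root_three hnum hj ht
  have hY := hasOrd_root_three hnum hj hy
  have key : (y - t) * (t ^ 3 * y ^ 3 - (196830 * t ^ 2 + 19131876 * t + 387420489) * y ^ 2
      - (19131876 * t ^ 2 + 387420489 * t) * y - 387420489 * t ^ 2) = 0 := by
    linear_combination t ^ 3 * hy - y ^ 3 * ht
  rcases mul_eq_zero.1 key with h | h
  · exact sub_eq_zero.1 h
  · exfalso
    have ha0 : HasOrd v (387420489 : L) 0 := by
      have := hnum 387420489 (by norm_num)
      rwa [Nat.cast_ofNat] at this
    have ha1 : HasOrd v (19131876 : L) 0 := by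
      have := hnum 19131876 (by norm_num)
      rwa [Nat.cast_ofNat] at this
    have ha2 : HasOrd v (196830 : L) 0 := by
      have := hnum 196830 (by norm_num)
      rwa [Nat.cast_ofNat] at this
    have hA : HasOrd v (t ^ 3 * y ^ 3) (-6) := by
      have := (hT.pow 3).mul (hY.pow 3)
      norm_num at this
      exact this
    have hB1 : HasOrd v (196830 * t ^ 2 + 19131876 * t + 387420489) (-2) := by
      have h1 : HasOrd v (196830 * t ^ 2) (-2) := by
        have := ha2.mul (hT.pow 2)
        norm_num at this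
        exact this
      have h2 : HasOrd v (19131876 * t) (-1) := by
        have := ha1.mul hT
        norm_num at this
        exact this
      exact (h1.add_of_lt h2 (by norm_num)).add_of_lt ha0 (by norm_num)
    have hB : HasOrd v (-((196830 * t ^ 2 + 19131876 * t + 387420489) * y ^ 2)) (-4) := by
      have := (hB1.mul (hY.pow 2)).neg
      norm_num at this
      exact this
    have hC1 : HasOrd v (19131876 * t ^ 2 + 387420489 * t) (-2) := by
      have h1 : HasOrd v (19131876 * t ^ 2) (-2) := by
        have := ha1.mul (hT.pow 2)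
        norm_num at this
        exact this
      have h2 : HasOrd v (387420489 * t) (-1) := by
        have := ha0.mul hT
        norm_num at this
        exact this
      exact h1.add_of_lt h2 (by norm_num)
    have hC : HasOrd v (-((19131876 * t ^ 2 + 387420489 * t) * y)) (-3) := by
      have := (hC1.mul hY).neg
      norm_num at this
      exact this
    have hD : HasOrd v (-(387420489 * t ^ 2)) (-2) := by
      have := (ha0.mul (hT.pow 2)).neg
      norm_num at this
      exact this
    refine ne_zero_of_dominant4 hA hB hC hD (by norm_num) (by norm_num) (by norm_num) ?_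
    rw [← h]
    ring

end three

end Fermat.Agent.H38.ES1KL
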