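/-
helper38 (P-DS / ES1-KL-DEGX, sub-lead helper91), part 2: the level 2 / level 3 modular
equations over `K((q))`, `K` a field of characteristic `0`, `j = jqModC K`:

* `laurent_root_two_unique`, `laurent_root_three_unique`: the equation `(X + 256)³ = j X²`
  (resp. `(X + 27)(X + 243)³ = j X³`) has at most one root in `K((q))`;
* `natDegree_minpoly_two`, `natDegree_minpoly_three`: for every intermediate field `F` of
  `K((q)) / K` containing `j` and every root `t`, the degree of `t` over `F` is `1` or `3`
  (resp. `1`, `2` or `4`);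
* `finrank_adjoin_two`, `finrank_adjoin_three`: the same for `[F(t) : F]`, and the forms
  `∃ k, [F(t) : F] = 3 ^ k` (resp. `2 ^ k`).
-/
import Fermat.Agent.H38.ES1KL.RootVal
import Fermat.Prelude.Sol.S_ModularCurve_coeff_jqModC_neg_one

set_option autoImplicit false

noncomputable section

namespace Fermat.Agent.H38.ES1KL

open ModularCurve Polynomial IntermediateField

/-! ### The valuation of `K((q))` -/

section laurent

variable (K : Type*) [Field K]

theorem laurent_hasOrd_natCast [CharZero K] (n : ℕ) (hn : n ≠ 0) :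
    HasOrd (HahnSeries.addVal ℤ K) ((n : ℕ) : LaurentSeries K) 0 := by
  have h1 : ((n : ℕ) : LaurentSeries K) = HahnSeries.C ((n : ℕ) : K) := by
    rw [map_natCast]
  have h2 : ((n : ℕ) : K) ≠ 0 := Nat.cast_ne_zero.2 hn
  have h3 : (HahnSeries.C ((n : ℕ) : K) : LaurentSeries K) ≠ 0 := by
    intro h
    exact h2 (HahnSeries.C_injective (h.trans (map_zero _).symm))
  rw [HasOrd, h1, HahnSeries.addVal_apply_of_ne h3, HahnSeries.order_C]

theorem laurent_hasOrd_jqModC : HasOrd (HahnSeries.addVal ℤ K) (jqModC K) (-1) := by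
  have h0 : jqModC K ≠ 0 := by
    intro h
    have h1 := P2MW.S_ModularCurve_coeff_jqModC_neg_one.ModularCurve.CharLRows.order_jqModC K
    rw [h, HahnSeries.order_zero] at h1
    norm_num at h1
  rw [HasOrd, HahnSeries.addVal_apply_of_ne h0,
    P2MW.S_ModularCurve_coeff_jqModC_neg_one.ModularCurve.CharLRows.order_jqModC K]

variable {K}

/-- **[DEGX a, level 2]** `(X + 256)³ = j X²` has at most one root in `K((q))`. -/
theorem laurent_root_two_unique [CharZero K] {t y : LaurentSeries K}
    (ht : (t + 256) ^ 3 = jqModC K * t ^ 2) (hy : (y + 256) ^ 3 = jqModC K * y ^ 2) : y = t :=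
  root_two_unique (laurent_hasOrd_natCast K) (laurent_hasOrd_jqModC K) ht hy

/-- **[DEGX a, level 3]** `(X + 27)(X + 243)³ = j X³` has at most one root in `K((q))`. -/
theorem laurent_root_three_unique [CharZero K] {t y : LaurentSeries K}
    (ht : (t + 27) * (t + 243) ^ 3 = jqModC K * t ^ 3)
    (hy : (y + 27) * (y + 243) ^ 3 = jqModC K * y ^ 3) : y = t :=
  root_three_unique (laurent_hasOrd_natCast K) (laurent_hasOrd_jqModC K) ht hy

end laurent

/-! ### The degree of a unique root -/

section degree

variable {F L : Type*} [Field F] [Field L] [Algebra F L]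

/-- If `t` is a root of the monic polynomial `P` over `F`, every root of `P` in `F` is `t`, and
the minimal polynomial of `t` has degree `deg P - 1`, then `t` has degree `1`. -/
theorem natDegree_minpoly_eq_one_of_unique_root (P : F[X]) (hP : P.Monic) (t : L)
    (ht : aeval t P = 0) (huniq : ∀ c : F, P.eval c = 0 → algebraMap F L c = t)
    (hd : (minpoly F t).natDegree + 1 = P.natDegree) : (minpoly F t).natDegree = 1 := by
  have hint : IsIntegral F t := ⟨P, hP, ht⟩
  obtain ⟨R, hR⟩ := minpoly.dvd F t ht
  have hm : (minpoly F t).Monic := minpoly.monic hint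
  have hRm : R.Monic := by
    have := hP
    rw [hR] at this
    exact hm.of_mul_monic_left this
  have hdeg : P.natDegree = (minpoly F t).natDegree + R.natDegree := by
    rw [hR, hm.natDegree_mul hRm]
  have hR1 : R.natDegree = 1 := by omega
  have hRroot : R.eval (-R.coeff 0) = 0 := by
    have h1 := hRm.eq_X_add_C hR1
    rw [h1]
    simp
  have hPc : P.eval (-R.coeff 0) = 0 := by
    rw [hR, eval_mul, hRroot, mul_zero]
  have hc := huniq _ hPc
  have hmin : minpoly F t = X - C (-R.coeff 0) := by
    rw [← hc]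
    exact minpoly.eq_X_sub_C L _
  rw [hmin, natDegree_X_sub_C]

end degree

/-! ### The modular equations over an intermediate field -/

section modular

variable {K : Type*} [Field K]

/-- The level 2 modular polynomial `(X + 256)³ - j X²` over `F ∋ j`. -/
def modPolyTwo (F : IntermediateField K (LaurentSeries K)) (hj : jqModC K ∈ F) : F[X] :=
  (X + C (256 : F)) ^ 3 - C (⟨jqModC K, hj⟩ : F) * X ^ 2

/-- The level 3 modular polynomial `(X + 27)(X + 243)³ - j X³` over `F ∋ j`. -/
def modPolyThree (F : IntermediateField K (LaurentSeries K)) (hj : jqModC K ∈ F) : F[X] :=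
  (X + C (27 : F)) * (X + C (243 : F)) ^ 3 - C (⟨jqModC K, hj⟩ : F) * X ^ 3

variable (F : IntermediateField K (LaurentSeries K)) (hj : jqModC K ∈ F)

theorem modPolyTwo_eq : modPolyTwo F hj =
    X ^ 3 + C ((768 : F) - ⟨jqModC K, hj⟩) * X ^ 2 + C (196608 : F) * X + C (16777216 : F) := by
  unfold modPolyTwo
  simp only [map_sub, map_ofNat]
  ring

theorem modPolyThree_eq : modPolyThree F hj =
    X ^ 4 + C ((756 : F) - ⟨jqModC K, hj⟩) * X ^ 3 + C (196830 : F) * X ^ 2 +
      C (19131876 : F) * X + C (387420489 : F) := by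
  unfold modPolyThree
  simp only [map_sub, map_ofNat]
  ring

theorem modPolyTwo_natDegree : (modPolyTwo F hj).natDegree = 3 := by
  rw [modPolyTwo_eq]
  compute_degree!

theorem modPolyThree_natDegree : (modPolyThree F hj).natDegree = 4 := by
  rw [modPolyThree_eq]
  compute_degree!

theorem modPolyTwo_monic : (modPolyTwo F hj).Monic := by
  rw [modPolyTwo_eq]
  monicity!

theorem modPolyThree_monic : (modPolyThree F hj).Monic := by
  rw [modPolyThree_eq]
  monicity!

theorem aeval_modPolyTwo (y : LaurentSeries K) :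
    aeval y (modPolyTwo F hj) = (y + 256) ^ 3 - jqModC K * y ^ 2 := by
  unfold modPolyTwo
  simp only [map_sub, map_pow, map_add, map_mul, aeval_X, aeval_C, map_ofNat]
  rfl

theorem aeval_modPolyThree (y : LaurentSeries K) :
    aeval y (modPolyThree F hj) = (y + 27) * (y + 243) ^ 3 - jqModC K * y ^ 3 := by
  unfold modPolyThree
  simp only [map_sub, map_pow, map_add, map_mul, aeval_X, aeval_C, map_ofNat]
  rfl

variable {F} [CharZero K]

include hj

/-- **[DEGX b, level 2]** the degree over `F ∋ j` of a root of `(X + 256)³ = j X²`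
is `1` or `3`. -/
theorem natDegree_minpoly_two {t : LaurentSeries K} (ht : (t + 256) ^ 3 = jqModC K * t ^ 2) :
    (minpoly F t).natDegree = 1 ∨ (minpoly F t).natDegree = 3 := by
  have h0 : aeval t (modPolyTwo F hj) = 0 := by
    rw [aeval_modPolyTwo, ht, sub_self]
  have hint : IsIntegral F t := ⟨_, modPolyTwo_monic F hj, h0⟩
  have hpos := minpoly.natDegree_pos hint
  have hle : (minpoly F t).natDegree ≤ 3 := by
    rw [← modPolyTwo_natDegree F hj]
    exact natDegree_le_of_dvd (minpoly.dvd F t h0) (modPolyTwo_monic F hj).ne_zero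
  have h2 : (minpoly F t).natDegree ≠ 2 := by
    intro h
    have := natDegree_minpoly_eq_one_of_unique_root _ (modPolyTwo_monic F hj) t h0
      (fun c hc => by
        apply laurent_root_two_unique ht
        have h1 : aeval (algebraMap F (LaurentSeries K) c) (modPolyTwo F hj) = 0 := by
          rw [aeval_algebraMap_apply, coe_aeval_eq_eval, hc, map_zero]
        rw [aeval_modPolyTwo] at h1
        exact sub_eq_zero.1 h1)
      (by rw [modPolyTwo_natDegree, h])
    omega
  omega

/-- **[DEGX b, level 3]** the degree over `F ∋ j` of a root of `(X + 27)(X + 243)³ = j X³`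
is `1`, `2` or `4`. -/
theorem natDegree_minpoly_three {t : LaurentSeries K}
    (ht : (t + 27) * (t + 243) ^ 3 = jqModC K * t ^ 3) :
    (minpoly F t).natDegree = 1 ∨ (minpoly F t).natDegree = 2 ∨
      (minpoly F t).natDegree = 4 := by
  have h0 : aeval t (modPolyThree F hj) = 0 := by
    rw [aeval_modPolyThree, ht, sub_self]
  have hint : IsIntegral F t := ⟨_, modPolyThree_monic F hj, h0⟩
  have hpos := minpoly.natDegree_pos hint
  have hle : (minpoly F t).natDegree ≤ 4 := by
    rw [← modPolyThree_natDegree F hj]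
    exact natDegree_le_of_dvd (minpoly.dvd F t h0) (modPolyThree_monic F hj).ne_zero
  have h3 : (minpoly F t).natDegree ≠ 3 := by
    intro h
    have := natDegree_minpoly_eq_one_of_unique_root _ (modPolyThree_monic F hj) t h0
      (fun c hc => by
        apply laurent_root_three_unique ht
        have h1 : aeval (algebraMap F (LaurentSeries K) c) (modPolyThree F hj) = 0 := by
          rw [aeval_algebraMap_apply, coe_aeval_eq_eval, hc, map_zero]
        rw [aeval_modPolyThree] at h1
        exact sub_eq_zero.1 h1)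
      (by rw [modPolyThree_natDegree, h])
    omega
  omega

omit [CharZero K] in
theorem isIntegral_root_two {t : LaurentSeries K} (ht : (t + 256) ^ 3 = jqModC K * t ^ 2) :
    IsIntegral F t :=
  ⟨_, modPolyTwo_monic F hj, by rw [← aeval_def, aeval_modPolyTwo, ht, sub_self]⟩

omit [CharZero K] in
theorem isIntegral_root_three {t : LaurentSeries K}
    (ht : (t + 27) * (t + 243) ^ 3 = jqModC K * t ^ 3) : IsIntegral F t :=
  ⟨_, modPolyThree_monic F hj, by rw [← aeval_def, aeval_modPolyThree, ht, sub_self]⟩

/-- **[DEGX b, level 2]** `[F(t) : F] ∈ {1, 3}`. -/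
theorem finrank_adjoin_two {t : LaurentSeries K} (ht : (t + 256) ^ 3 = jqModC K * t ^ 2) :
    Module.finrank F F⟮t⟯ = 1 ∨ Module.finrank F F⟮t⟯ = 3 := by
  rw [IntermediateField.adjoin.finrank (isIntegral_root_two hj ht)]
  exact natDegree_minpoly_two hj ht

/-- **[DEGX b, level 3]** `[F(t) : F] ∈ {1, 2, 4}`. -/
theorem finrank_adjoin_three {t : LaurentSeries K}
    (ht : (t + 27) * (t + 243) ^ 3 = jqModC K * t ^ 3) :
    Module.finrank F F⟮t⟯ = 1 ∨ Module.finrank F F⟮t⟯ = 2 ∨ Module.finrank F F⟮t⟯ = 4 := by
  rw [IntermediateField.adjoin.finrank (isIntegral_root_three hj ht)]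
  exact natDegree_minpoly_three hj ht

/-- `[F(t) : F]` is a power of `3` at level 2. -/
theorem finrank_adjoin_two_pow {t : LaurentSeries K} (ht : (t + 256) ^ 3 = jqModC K * t ^ 2) :
    ∃ k : ℕ, Module.finrank F F⟮t⟯ = 3 ^ k := by
  rcases finrank_adjoin_two hj ht with h | h
  · exact ⟨0, by rw [h, pow_zero]⟩
  · exact ⟨1, by rw [h, pow_one]⟩

/-- `[F(t) : F]` is a power of `2` at level 3. -/
theorem finrank_adjoin_three_pow {t : LaurentSeries K}
    (ht : (t + 27) * (t + 243) ^ 3 = jqModC K * t ^ 3) :
    ∃ k : ℕ, Module.finrank F F⟮t⟯ = 2 ^ k := by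
  rcases finrank_adjoin_three hj ht with h | h | h
  · exact ⟨0, by rw [h, pow_zero]⟩
  · exact ⟨1, by rw [h, pow_one]⟩
  · exact ⟨2, by rw [h]; norm_num⟩

end modular

end Fermat.Agent.H38.ES1KL
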