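/-
helper38 (P-DS / ES1-KL-DEGX, sub-lead helper91), part 3: the Hauptmoduln `t₂ = t2S K` and
`t₃ = t3 K` are THE roots of the modular equations in `K((q))` (`K` a field of characteristic
`0`), and their degrees over any intermediate field `F ∋ j` of `K((q)) / K`:
`[F(t₂) : F] ∈ {1, 3}`, `[F(t₃) : F] ∈ {1, 2, 4}`.
-/
import Fermat.Agent.H38.ES1KL.DegX
import Fermat.Agent.H17.ESD.PsiTwo
import Fermat.Agent.H1.ESD.T3Laurent

set_option autoImplicit false

noncomputable section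

namespace Fermat.Agent.H38.ES1KL

open ModularCurve Polynomial IntermediateField

variable (K : Type*) [Field K]

theorem t2S_root : (Fermat.Agent.H17.ESD.t2S K + 256) ^ 3 =
    jqModC K * Fermat.Agent.H17.ESD.t2S K ^ 2 :=
  (Fermat.Agent.H17.ESD.t2S_identity K).symm

theorem t3_root : (Fermat.Agent.H1.ESD.t3 K + 27) * (Fermat.Agent.H1.ESD.t3 K + 243) ^ 3 =
    jqModC K * Fermat.Agent.H1.ESD.t3 K ^ 3 :=
  (Fermat.Agent.H1.ESD.t3_rel K).symm

variable {K} [CharZero K]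

/-- **[DEGX a, level 2]** every `y ∈ K((q))` with `(y + 256)³ = j y²` equals `t₂`. -/
theorem eq_t2S_of_root {y : LaurentSeries K} (hy : (y + 256) ^ 3 = jqModC K * y ^ 2) :
    y = Fermat.Agent.H17.ESD.t2S K :=
  laurent_root_two_unique (t2S_root K) hy

/-- **[DEGX a, level 3]** every `y ∈ K((q))` with `(y + 27)(y + 243)³ = j y³` equals `t₃`. -/
theorem eq_t3_of_root {y : LaurentSeries K}
    (hy : (y + 27) * (y + 243) ^ 3 = jqModC K * y ^ 3) : y = Fermat.Agent.H1.ESD.t3 K :=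
  laurent_root_three_unique (t3_root K) hy

variable {F : IntermediateField K (LaurentSeries K)} (hj : jqModC K ∈ F)

include hj

/-- **[DEGX b, level 2]** the degree of `t₂` over `F ∋ j` is `1` or `3`. -/
theorem natDegree_minpoly_t2S :
    (minpoly F (Fermat.Agent.H17.ESD.t2S K)).natDegree = 1 ∨
      (minpoly F (Fermat.Agent.H17.ESD.t2S K)).natDegree = 3 :=
  natDegree_minpoly_two hj (t2S_root K)

/-- **[DEGX b, level 3]** the degree of `t₃` over `F ∋ j` is `1`, `2` or `4`. -/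
theorem natDegree_minpoly_t3 :
    (minpoly F (Fermat.Agent.H1.ESD.t3 K)).natDegree = 1 ∨
      (minpoly F (Fermat.Agent.H1.ESD.t3 K)).natDegree = 2 ∨
      (minpoly F (Fermat.Agent.H1.ESD.t3 K)).natDegree = 4 :=
  natDegree_minpoly_three hj (t3_root K)

/-- **[DEGX b, level 2]** `[F(t₂) : F] ∈ {1, 3}`. -/
theorem finrank_adjoin_t2S :
    Module.finrank F F⟮Fermat.Agent.H17.ESD.t2S K⟯ = 1 ∨
      Module.finrank F F⟮Fermat.Agent.H17.ESD.t2S K⟯ = 3 :=
  finrank_adjoin_two hj (t2S_root K)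

/-- **[DEGX b, level 3]** `[F(t₃) : F] ∈ {1, 2, 4}`. -/
theorem finrank_adjoin_t3 :
    Module.finrank F F⟮Fermat.Agent.H1.ESD.t3 K⟯ = 1 ∨
      Module.finrank F F⟮Fermat.Agent.H1.ESD.t3 K⟯ = 2 ∨
      Module.finrank F F⟮Fermat.Agent.H1.ESD.t3 K⟯ = 4 :=
  finrank_adjoin_three hj (t3_root K)

/-- `[F(t₂) : F]` is a power of `3`. -/
theorem finrank_adjoin_t2S_pow :
    ∃ k : ℕ, Module.finrank F F⟮Fermat.Agent.H17.ESD.t2S K⟯ = 3 ^ k :=
  finrank_adjoin_two_pow hj (t2S_root K)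

/-- `[F(t₃) : F]` is a power of `2`. -/
theorem finrank_adjoin_t3_pow :
    ∃ k : ℕ, Module.finrank F F⟮Fermat.Agent.H1.ESD.t3 K⟯ = 2 ^ k :=
  finrank_adjoin_three_pow hj (t3_root K)

end Fermat.Agent.H38.ES1KL
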