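/-
helper38 (P-DS / ES1-KL-DEGX, sub-lead helper91), part 4: compositum forms.
For `F : IntermediateField K K((q))` containing `j`:
`relfinrank F (F ⊔ K⟮t₂⟯) ∈ {1, 3}`, `relfinrank F (F ⊔ K⟮t₃⟯) ∈ {1, 2, 4}`, and more generally
`relfinrank F (F ⊔ G) = [F(t) : F]` whenever `F ⊔ G = F ⊔ K⟮t⟯`.
-/
import Fermat.Agent.H38.ES1KL.DegXT

set_option autoImplicit false

noncomputable section

namespace Fermat.Agent.H38.ES1KL

open ModularCurve Polynomial IntermediateField

section general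

variable {K L : Type*} [Field K] [Field L] [Algebra K L]

/-- `[F · K(t) : F] = [F(t) : F]`. -/
theorem relfinrank_sup_adjoin_simple (F : IntermediateField K L) (t : L) :
    IntermediateField.relfinrank F (F ⊔ K⟮t⟯) = Module.finrank F F⟮t⟯ := by
  have h : F ≤ F ⊔ K⟮t⟯ := le_sup_left
  rw [relfinrank_eq_finrank_of_le h]
  have e : extendScalars h = F⟮t⟯ := by
    apply restrictScalars_injective K
    rw [extendScalars_restrictScalars, restrictScalars_adjoin_eq_sup]
  rw [e]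

/-- `[F · G : F] = [F(t) : F]` if `F · G = F · K(t)`. -/
theorem relfinrank_sup_eq_of_sup_eq (F G : IntermediateField K L) (t : L)
    (h : F ⊔ G = F ⊔ K⟮t⟯) :
    IntermediateField.relfinrank F (F ⊔ G) = Module.finrank F F⟮t⟯ := by
  rw [h, relfinrank_sup_adjoin_simple]

end general

variable {K : Type*} [Field K] [CharZero K]
variable {F : IntermediateField K (LaurentSeries K)} (hj : jqModC K ∈ F)

include hj

/-- **[DEGX b, level 2, compositum form]** -/
theorem relfinrank_sup_t2S :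
    IntermediateField.relfinrank F (F ⊔ K⟮Fermat.Agent.H17.ESD.t2S K⟯) = 1 ∨
      IntermediateField.relfinrank F (F ⊔ K⟮Fermat.Agent.H17.ESD.t2S K⟯) = 3 := by
  rw [relfinrank_sup_adjoin_simple]
  exact finrank_adjoin_t2S hj

/-- **[DEGX b, level 3, compositum form]** -/
theorem relfinrank_sup_t3 :
    IntermediateField.relfinrank F (F ⊔ K⟮Fermat.Agent.H1.ESD.t3 K⟯) = 1 ∨
      IntermediateField.relfinrank F (F ⊔ K⟮Fermat.Agent.H1.ESD.t3 K⟯) = 2 ∨
      IntermediateField.relfinrank F (F ⊔ K⟮Fermat.Agent.H1.ESD.t3 K⟯) = 4 := by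
  rw [relfinrank_sup_adjoin_simple]
  exact finrank_adjoin_t3 hj

theorem relfinrank_sup_t2S_pow :
    ∃ k : ℕ, IntermediateField.relfinrank F (F ⊔ K⟮Fermat.Agent.H17.ESD.t2S K⟯) = 3 ^ k := by
  rw [relfinrank_sup_adjoin_simple]
  exact finrank_adjoin_t2S_pow hj

theorem relfinrank_sup_t3_pow :
    ∃ k : ℕ, IntermediateField.relfinrank F (F ⊔ K⟮Fermat.Agent.H1.ESD.t3 K⟯) = 2 ^ k := by
  rw [relfinrank_sup_adjoin_simple]
  exact finrank_adjoin_t3_pow hj

end Fermat.Agent.H38.ES1KL
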